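import Fermat.Agent.RIB.Flat.Lift

/-!
# RIB / Flat / Fin : `[RIB-FLAT]` without surjectivity of `Λ → k`

Push-forward of a flat `T²` along ANY ring hom `φ : T → B` to a finite ring `B` is flat: the map
`(B → T²) → B²`, `x ↦ ∑ b, b • φ (x b)` is onto and equivariant.  Consequently the tangent vectors
`φ : A →ₐ[Λ] k[ε]` give `FlatLift`s as soon as `k` is finite (e.g. `Λ = ZMod p`, `k = F_{p²}`).
-/

set_option autoImplicit false

open ModularCurve ExtCitation

namespace Fermat.Agent.RIB

open Fermat.Agent.S56 Fermat.Agent.S56.Flat Fermat.Agent.S56.Font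
open CFT (Qb)

section Abs

variable {Γ : Type} [Group Γ] {C : Type} [Field C] [MulSemiringAction Γ C]
  {Γ₀ : Type} [LinearOrderedCommGroupWithZero Γ₀] {v : Valuation C Γ₀}
  {T B : Type} [CommRing T] [CommRing B]

/-- push-forward along an arbitrary ring hom to a finite ring. -/
theorem HasFlat.vecAct_map_finite [CharZero C] [Finite (Fin 2 → T)] [Finite B]
    {r : Γ →* Matrix (Fin 2) (Fin 2) T} (h : HasFlat v (vecAct r)) (φ : T →+* B) :
    HasFlat v (vecAct (pushM φ r)) := by
  classical
  have := Fintype.ofFinite B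
  refine HasFlat.of_surjective (α := piAct B (vecAct r))
    { toFun := fun x : B → (Fin 2 → T) => fun i => ∑ b : B, b * φ (x b i)
      map_zero' := by funext i; simp
      map_add' := fun x y => by
        funext i
        simp only [Pi.add_apply, map_add, mul_add, Finset.sum_add_distrib] } ?_ ?_
    (HasFlat.pi h B)
  · intro y
    refine ⟨fun b => fun i => (if b = y i then 1 else 0), funext fun i => ?_⟩
    show ∑ b : B, b * φ (if b = y i then 1 else 0) = y i
    rw [Finset.sum_eq_single (y i)]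
    · simp
    · intro b _ hb
      simp [hb]
    · intro hb
      exact absurd (Finset.mem_univ _) hb
  · intro g x
    funext i
    show ∑ b : B, b * φ ((r g).mulVec (x b) i) =
      ((r g).map φ).mulVec (fun j => ∑ b : B, b * φ (x b j)) i
    simp only [Matrix.mulVec, dotProduct, Fin.sum_univ_two, map_add, map_mul, Matrix.map_apply,
      Finset.mul_sum, ← Finset.sum_add_distrib]
    refine Finset.sum_congr rfl fun b _ => ?_
    ring

end Abs

variable {Γ₀ : Type} [LinearOrderedCommGroupWithZero Γ₀] {v : Valuation Qb Γ₀}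

/-- flatness of the push-forward along any ring hom to a finite ring. -/
theorem hasFlat_matAct_mapRep_finite {T B : Type} [CommRing T] [CommRing B] [Finite B]
    (G : Subgroup GQ) (r : GQ →* M2 T) {W : Type} [AddCommGroup W] [Module (M2 T) W] [Finite W]
    (hfaith : ∀ t : T, (∀ w : W, (Matrix.scalar (Fin 2) t) • w = 0) → t = 0)
    (hW : HasFlat v (modAct W (r.comp G.subtype))) (φ : T →+* B) :
    HasFlat v (matAct G (S53.mapRep φ r)) := by
  have := finite_of_faithful (W := W) hfaith
  exact HasFlat.vecAct_map_finite (hasFlat_vecAct (r.comp G.subtype) hfaith hW) φ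

variable {p : ℕ} [Fact p.Prime] {k : Type} [Field k] {Λ A : Type} [CommRing Λ] [Algebra Λ k]
  [CommRing A] [Algebra Λ A]

instance finite_dualNumber_aux [Finite k] : Finite (DualNumber k) :=
  inferInstanceAs (Finite (k × k))

/-- **[RIB-FLAT]** for a finite `k`, `Λ → k` arbitrary. -/
theorem flatLift_pushRep_fin [Finite k] {rbar : GQ →* M2 k}
    {π : A →ₐ[Λ] k} {rA : GQ →* M2 A} (hlift : ∀ σ, (rA σ).map π = rbar σ)
    (hdet : ∀ σ, ∃ c : Λ, (rA σ).det = algebraMap Λ A c)
    (hcont : GaloisFactorsThroughFiniteLevel rA)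
    {W : Type} [AddCommGroup W] [Module (M2 A) W] [Finite W]
    (hfaith : ∀ t : A, (∀ w : W, (Matrix.scalar (Fin 2) t) • w = 0) → t = 0)
    (hW : HasFlat (Ap p).valuation (modAct W (rA.comp (Ip p).subtype)))
    {φ : A →ₐ[Λ] DualNumber k} (hφ : ∀ a, (φ a).fst = π a) :
    FlatLift p rbar (pushRep φ rA) where
  lift := isLift_pushRep hlift hφ
  det := det_pushRep hlift hdet φ
  cont := factors_pushRep hcont φ
  flat := hasFlat_matAct_mapRep_finite (Ip p) rA hfaith hW (φ : A →+* DualNumber k)

/-- **[RIB-FLAT]** for a finite `k`, `Λ → k` arbitrary, with `W` embedded in a power of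
`J₀(L)[p^n]`. -/
theorem flatLift_pushRep_of_embedding_fin [Finite k]
    {rbar : GQ →* M2 k} {π : A →ₐ[Λ] k} {rA : GQ →* M2 A} (hlift : ∀ σ, (rA σ).map π = rbar σ)
    (hdet : ∀ σ, ∃ c : Λ, (rA σ).det = algebraMap Λ A c)
    (hcont : GaloisFactorsThroughFiniteLevel rA)
    {W : Type} [AddCommGroup W] [Module (M2 A) W]
    (hfaith : ∀ t : A, (∀ w : W, (Matrix.scalar (Fin 2) t) • w = 0) → t = 0)
    (L : ℕ) [NeZero L] (hpL : ¬ p ∣ L) (n : ℕ) (ι : Type) [Finite ι] [Nonempty ι]
    (j : W →+ (ι → ↥(Submodule.torsionBy ℤ (JZero L) ((p : ℤ) ^ n))))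
    (hj : Function.Injective j)
    (heq : ∀ (σ : GQ) (w : W) (i : ι), ((j (rA σ • w) i : _) : JZero L) = σ • ((j w i : _) : JZero L))
    {φ : A →ₐ[Λ] DualNumber k} (hφ : ∀ a, (φ a).fst = π a) :
    FlatLift p rbar (pushRep φ rA) := by
  have hp : p.Prime := Fact.out
  have := finite_tors hp L hpL n
  have : Finite W := Finite.of_injective j hj
  refine flatLift_pushRep_fin hlift hdet hcont hfaith ?_ hφ
  exact hasFlat_of_embedding hp (liesOverPrime_primeLocalPlace (pPrime p)) L hpL n (modAct W rA) ι j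
    hj heq

end Fermat.Agent.RIB
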