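import Fermat.Agent.S56.Flat.Sub
import Fermat.Agent.S56.Flat.Quot
import Fermat.Agent.S56.Flat.FKAbs

/-!
# RIB / Flat / Abs : flatness of the push-forwards of `ρ : Γ → GL₂(T)` realised in a flat module

`Γ` acts on the valued field `(C, v)` (setting of `S56/Flat/Defs.lean`).  `T` a commutative ring, `W` a finite abelian group
which is a module over `M₂(T)` on which the scalars act faithfully, `r : Γ →* M₂(T)`.

* `HasFlat.pi` : finite (non empty) powers of a flat action are flat.
* `hasFlat_vecAct` : if `g ↦ r g • ·` on `W` is flat, so is `g ↦ r g *ᵥ ·` on `T²`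
  (`T² ↪ W^W`, `x ↦ (w ↦ col x • w)`, `col x = (x | 0)`).
* `HasFlat.vecAct_map` : push-forward along a surjective ring hom.
* `HasFlat.vecAct_dual` : push-forward along a ring hom `φ : T → k[ε]` whose image contains the constants
  (`T² × T² → k[ε]²`, `(x, y) ↦ φ x + ε φ y` is onto).
-/

set_option autoImplicit false

namespace Fermat.Agent.RIB

open Fermat.Agent.S56.Flat Fermat.Agent.S56.Font

variable {Γ : Type} [Group Γ] {C : Type} [Field C] [MulSemiringAction Γ C]
  {Γ₀ : Type} [LinearOrderedCommGroupWithZero Γ₀] {v : Valuation C Γ₀}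

section Pi

variable {X : Type} [AddCommGroup X]

/-- the diagonal action on `ι → X`. -/
def piAct (ι : Type) (α : Γ →* AddMonoid.End X) : Γ →* AddMonoid.End (ι → X) where
  toFun g :=
    { toFun := fun f i => α g (f i)
      map_zero' := by funext i; exact map_zero _
      map_add' := fun f f' => by funext i; exact map_add _ _ _ }
  map_one' := by
    ext f : 1
    funext i
    show α 1 (f i) = f i
    rw [map_one]; rfl
  map_mul' g h := by
    ext f : 1
    funext i
    show α (g * h) (f i) = α g (α h (f i))
    rw [map_mul]; rfl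

@[simp] theorem piAct_apply (ι : Type) (α : Γ →* AddMonoid.End X) (g : Γ) (f : ι → X) (i : ι) :
    piAct ι α g f i = α g (f i) := rfl

theorem hasFlat_piAct_fin [Finite X] {α : Γ →* AddMonoid.End X} (h : HasFlat v α) (n : ℕ) :
    HasFlat v (piAct (Fin (n + 1)) α) := by
  induction n with
  | zero =>
    refine HasFlat.of_injective (α := α)
      { toFun := fun f : Fin 1 → X => f 0, map_zero' := rfl, map_add' := fun _ _ => rfl }
      ?_ (fun _ _ => rfl) h
    intro f f' hff
    funext i
    have hi : i = 0 := Fin.ext (by have := i.2; omega)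
    rw [hi]
    exact hff
  | succ n ih =>
    refine HasFlat.of_injective (α := prodAct α (piAct (Fin (n + 1)) α))
      { toFun := fun f : Fin (n + 2) → X => (f 0, Fin.tail f)
        map_zero' := rfl, map_add' := fun _ _ => rfl }
      ?_ (fun _ _ => rfl) (HasFlat.prod h ih)
    intro f f' hff
    have h1 : f 0 = f' 0 := congrArg Prod.fst hff
    have h2 : Fin.tail f = Fin.tail f' := congrArg Prod.snd hff
    rw [← Fin.cons_self_tail f, ← Fin.cons_self_tail f', h1, h2]

/-- finite non empty powers. -/
theorem HasFlat.pi [Finite X] {α : Γ →* AddMonoid.End X} (h : HasFlat v α) (ι : Type) [Finite ι]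
    [Nonempty ι] : HasFlat v (piAct ι α) := by
  obtain ⟨n, ⟨e⟩⟩ := Finite.exists_equiv_fin ι
  obtain ⟨m, rfl⟩ : ∃ m, n = m + 1 := by
    cases n with
    | zero => exact (IsEmpty.false (e (Classical.arbitrary ι))).elim
    | succ m => exact ⟨m, rfl⟩
  refine HasFlat.of_injective (α := piAct (Fin (m + 1)) α)
    { toFun := fun f : ι → X => f ∘ e.symm, map_zero' := rfl, map_add' := fun _ _ => rfl }
    ?_ (fun _ _ => rfl) (hasFlat_piAct_fin h m)
  intro f f' hff
  funext i
  have := congrFun hff (e i)
  simpa using this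

end Pi

section Mat

variable {T : Type} [CommRing T]

/-- the action on column vectors. -/
noncomputable def vecAct (r : Γ →* Matrix (Fin 2) (Fin 2) T) : Γ →* AddMonoid.End (Fin 2 → T) where
  toFun g := (Matrix.mulVecLin (r g)).toAddMonoidHom
  map_one' := by
    ext x : 1
    show (r 1).mulVec x = x
    simp
  map_mul' g h := by
    ext x : 1
    show (r (g * h)).mulVec x = (r g).mulVec ((r h).mulVec x)
    rw [Matrix.mulVec_mulVec, map_mul]

@[simp] theorem vecAct_apply (r : Γ →* Matrix (Fin 2) (Fin 2) T) (g : Γ) (x : Fin 2 → T) :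
    vecAct r g x = (r g).mulVec x := rfl

/-- the action on an `M₂(T)`-module. -/
def modAct (W : Type) [AddCommGroup W] [Module (Matrix (Fin 2) (Fin 2) T) W]
    (r : Γ →* Matrix (Fin 2) (Fin 2) T) : Γ →* AddMonoid.End W where
  toFun g := DistribSMul.toAddMonoidHom W (r g)
  map_one' := by
    ext w : 1
    show r 1 • w = w
    rw [map_one, one_smul]
  map_mul' g h := by
    ext w : 1
    show r (g * h) • w = r g • r h • w
    rw [map_mul, mul_smul]

@[simp] theorem modAct_apply (W : Type) [AddCommGroup W] [Module (Matrix (Fin 2) (Fin 2) T) W]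
    (r : Γ →* Matrix (Fin 2) (Fin 2) T) (g : Γ) (w : W) : modAct W r g w = r g • w := rfl

/-- the matrix `(x | 0)`. -/
def colM (x : Fin 2 → T) : Matrix (Fin 2) (Fin 2) T := Matrix.of fun i j => if j = 0 then x i else 0

theorem mul_colM (A : Matrix (Fin 2) (Fin 2) T) (x : Fin 2 → T) :
    A * colM x = colM (A.mulVec x) := by
  ext i j
  fin_cases j
  · simp [colM, Matrix.mul_apply, Matrix.mulVec, dotProduct]
  · simp [colM, Matrix.mul_apply]

theorem colM_add (x y : Fin 2 → T) : colM (x + y) = colM x + colM y := by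
  ext i j
  fin_cases j <;> simp [colM]

theorem colM_zero : colM (0 : Fin 2 → T) = 0 := by
  ext i j
  fin_cases j <;> simp [colM]

end Mat

section Main

variable {T : Type} [CommRing T] {W : Type} [AddCommGroup W]
  [Module (Matrix (Fin 2) (Fin 2) T) W]

/-- `x ↦ (w ↦ (x | 0) • w)`. -/
def colHom (T W : Type) [CommRing T] [AddCommGroup W] [Module (Matrix (Fin 2) (Fin 2) T) W] :
    (Fin 2 → T) →+ (W → W) where
  toFun x := fun w => colM x • w
  map_zero' := by funext w; show colM (0 : Fin 2 → T) • w = 0; rw [colM_zero, zero_smul]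
  map_add' x y := by
    funext w
    show colM (x + y) • w = colM x • w + colM y • w
    rw [colM_add, add_smul]

theorem colHom_injective
    (hfaith : ∀ t : T, (∀ w : W, (Matrix.scalar (Fin 2) t) • w = 0) → t = 0) :
    Function.Injective (colHom T W) := by
  rw [injective_iff_map_eq_zero]
  intro x hx
  have h0 : ∀ w : W, colM x • w = 0 := fun w => congrFun hx w
  -- `scalar (x i) = E_{0 i} (x|0) E_{0 0} + E_{1 i} (x|0) E_{0 1}`
  have key : ∀ i : Fin 2, Matrix.scalar (Fin 2) (x i) =
      Matrix.single 0 i (1 : T) * colM x * Matrix.single 0 0 (1 : T) +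
      Matrix.single 1 i (1 : T) * colM x * Matrix.single 0 1 (1 : T) := by
    intro i
    ext a b
    fin_cases i <;> fin_cases a <;> fin_cases b <;>
      simp [colM, Matrix.mul_apply, Matrix.single, Matrix.scalar_apply, Matrix.diagonal]
  funext i
  apply hfaith
  intro w
  rw [key i, add_smul, mul_smul, mul_smul, mul_smul, mul_smul, h0, h0, smul_zero, smul_zero,
    add_zero]

/-- **[RIB-FLAT-1]** -/
theorem hasFlat_vecAct [Finite W] (r : Γ →* Matrix (Fin 2) (Fin 2) T)
    (hfaith : ∀ t : T, (∀ w : W, (Matrix.scalar (Fin 2) t) • w = 0) → t = 0)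
    (h : HasFlat v (modAct W r)) : HasFlat v (vecAct r) := by
  refine HasFlat.of_injective (α := piAct W (modAct W r)) (colHom T W) (colHom_injective hfaith)
    ?_ (HasFlat.pi h W)
  intro g x
  funext w
  show colM ((r g).mulVec x) • w = r g • colM x • w
  rw [← mul_colM, mul_smul]

theorem finite_of_faithful [Finite W]
    (hfaith : ∀ t : T, (∀ w : W, (Matrix.scalar (Fin 2) t) • w = 0) → t = 0) :
    Finite (Fin 2 → T) :=
  Finite.of_injective _ (colHom_injective (W := W) hfaith)

end Main

section Push

variable {T B : Type} [CommRing T] [CommRing B]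

/-- push-forward of a matrix representation. -/
def pushM (ψ : T →+* B) (r : Γ →* Matrix (Fin 2) (Fin 2) T) : Γ →* Matrix (Fin 2) (Fin 2) B :=
  (ψ.mapMatrix : Matrix (Fin 2) (Fin 2) T →+* Matrix (Fin 2) (Fin 2) B).toMonoidHom.comp r

@[simp] theorem pushM_apply (ψ : T →+* B) (r : Γ →* Matrix (Fin 2) (Fin 2) T) (g : Γ) :
    pushM ψ r g = (r g).map ψ := rfl

/-- **[RIB-FLAT-2]** push-forward along a surjection. -/
theorem HasFlat.vecAct_map [CharZero C] [Finite (Fin 2 → T)] {r : Γ →* Matrix (Fin 2) (Fin 2) T}
    (h : HasFlat v (vecAct r)) (ψ : T →+* B) (hψ : Function.Surjective ψ) :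
    HasFlat v (vecAct (pushM ψ r)) := by
  refine HasFlat.of_surjective (α := vecAct r)
    { toFun := fun x : Fin 2 → T => fun i => ψ (x i)
      map_zero' := by funext i; exact map_zero ψ
      map_add' := fun x y => by funext i; exact map_add ψ _ _ } ?_ ?_ h
  · intro y
    choose x hx using fun i => hψ (y i)
    exact ⟨x, funext hx⟩
  · intro g x
    funext i
    show ψ ((r g).mulVec x i) = ((r g).map ψ).mulVec (fun j => ψ (x j)) i
    simp [Matrix.mulVec, dotProduct, Fin.sum_univ_two]

variable {k : Type} [Field k]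

/-- **[RIB-FLAT-3]** push-forward along a tangent vector. -/
theorem HasFlat.vecAct_dual [CharZero C] [Finite (Fin 2 → T)]
    {r : Γ →* Matrix (Fin 2) (Fin 2) T} (h : HasFlat v (vecAct r)) (φ : T →+* DualNumber k)
    (hk : ∀ a : k, ∃ t : T, φ t = TrivSqZeroExt.inl a) :
    HasFlat v (vecAct (pushM φ r)) := by
  refine HasFlat.of_surjective (α := prodAct (vecAct r) (vecAct r))
    { toFun := fun x : (Fin 2 → T) × (Fin 2 → T) =>
        fun i => φ (x.1 i) + DualNumber.eps * φ (x.2 i)
      map_zero' := by funext i; simp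
      map_add' := fun x y => by
        funext i
        simp only [Prod.fst_add, Prod.snd_add, Pi.add_apply, map_add]
        ring } ?_ ?_ (HasFlat.prod h h)
  · intro y
    choose x hx using fun i => hk (y i).fst
    choose x' hx' using fun i => hk (y i).snd
    refine ⟨(x, x'), funext fun i => ?_⟩
    show φ (x i) + DualNumber.eps * φ (x' i) = y i
    rw [hx, hx']
    ext <;> simp
  · intro g x
    funext i
    show φ ((r g).mulVec x.1 i) + DualNumber.eps * φ ((r g).mulVec x.2 i) =
      ((r g).map φ).mulVec (fun j => φ (x.1 j) + DualNumber.eps * φ (x.2 j)) i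
    simp only [Matrix.mulVec, dotProduct, Fin.sum_univ_two, map_add, map_mul, Matrix.map_apply]
    ring

end Push

end Fermat.Agent.RIB
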