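import Fermat.Agent.RIB.Flat.Abs
import Fermat.Agent.S56.Flat.Bridge
import Fermat.Agent.S32.Wire
import Fermat.Agent.S19

/-!
# RIB / Flat / Jac : `G_ℚ`-modules embedded in a power of `J₀(L)[p^k]`, `p ∤ L`, are flat on inertia at `p`
-/

set_option autoImplicit false
set_option linter.style.haveILetI false

open ModularCurve

namespace Fermat.Agent.RIB

open Fermat.Agent.S56 Fermat.Agent.S56.Flat Fermat.Agent.S56.Font
open CFT (Qb)

/-- the Galois action on `J₀(L)[a]` as an explicit homomorphism. -/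
noncomputable def torsAct (L : ℕ) [NeZero L] (a : ℤ) :
    GQ →* AddMonoid.End ↥(Submodule.torsionBy ℤ (JZero L) a) :=
  letI := S32.torsAction GQ (JZero L) a
  DistribMulAction.toAddMonoidEnd GQ ↥(Submodule.torsionBy ℤ (JZero L) a)

theorem coe_torsAct (L : ℕ) [NeZero L] (a : ℤ) (σ : GQ) (x : ↥(Submodule.torsionBy ℤ (JZero L) a)) :
    ((torsAct L a σ x : ↥(Submodule.torsionBy ℤ (JZero L) a)) : JZero L) = σ • (x : JZero L) := rfl

variable {p : ℕ} {A : ValuationSubring Qb}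

theorem finite_tors (hp : p.Prime) (L : ℕ) [NeZero L] (hpL : ¬ p ∣ L) (k : ℕ) :
    Finite ↥(Submodule.torsionBy ℤ (JZero L) ((p : ℤ) ^ k)) := by
  have : Fact p.Prime := ⟨hp⟩
  letI := S32.torsAction GQ (JZero L) ((p : ℤ) ^ k)
  have hX : S32.HasModel p ↥(Submodule.torsionBy ℤ (JZero L) ((p : ℤ) ^ k)) := by
    obtain ⟨H', j1, j2, a1, a2, a3, e, a4, a5⟩ := S19.result L p hpL k
    exact ⟨H', j1, j2, a1, a2, a3, e, a4, fun σ f g hfg => Subtype.ext (a5 σ f g hfg)⟩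
  exact hX.finite

/-- **S19** in the language of `S56/Flat`. -/
theorem hasFlat_torsAct (hp : p.Prime) (hA : A.LiesOverPrime p) (L : ℕ) [NeZero L] (hpL : ¬ p ∣ L)
    (k : ℕ) :
    HasFlat A.valuation ((torsAct L ((p : ℤ) ^ k)).comp (A.inertiaSubgroupIn ℚ).subtype) := by
  have : Fact p.Prime := ⟨hp⟩
  letI := S32.torsAction GQ (JZero L) ((p : ℤ) ^ k)
  have hX : S32.HasModel p ↥(Submodule.torsionBy ℤ (JZero L) ((p : ℤ) ^ k)) := by
    obtain ⟨H', j1, j2, a1, a2, a3, e, a4, a5⟩ := S19.result L p hpL k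
    exact ⟨H', j1, j2, a1, a2, a3, e, a4, fun σ f g hfg => Subtype.ext (a5 σ f g hfg)⟩
  haveI := hX.finite
  exact hasFlat_of_hasOrder hp hA (torsAct L ((p : ℤ) ^ k)) (fun _ _ => rfl) hX.hasOrder

/-- **[RIB-FLAT-J]** a `G_ℚ`-module embedded in a finite power of `J₀(L)[p^k]` is flat. -/
theorem hasFlat_of_embedding (hp : p.Prime) (hA : A.LiesOverPrime p) (L : ℕ) [NeZero L]
    (hpL : ¬ p ∣ L) (k : ℕ) {W : Type} [AddCommGroup W] (act : GQ →* AddMonoid.End W)
    (ι : Type) [Finite ι] [Nonempty ι]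
    (j : W →+ (ι → ↥(Submodule.torsionBy ℤ (JZero L) ((p : ℤ) ^ k))))
    (hj : Function.Injective j)
    (heq : ∀ (σ : GQ) (w : W) (i : ι), ((j (act σ w) i : _) : JZero L) = σ • ((j w i : _) : JZero L)) :
    HasFlat A.valuation (act.comp (A.inertiaSubgroupIn ℚ).subtype) := by
  haveI := finite_tors hp L hpL k
  refine HasFlat.of_injective j hj ?_ (HasFlat.pi (hasFlat_torsAct hp hA L hpL k) ι)
  intro g w
  funext i
  exact Subtype.ext (heq g w i)

end Fermat.Agent.RIB
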