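import Fermat.Agent.RIB.Flat.Jac
import Fermat.Agent.S56.Flat.Ord.Defs
import Fermat.Agent.S56.Gen.Tan

/-!
# RIB / Flat / Lift : the tangent vectors of `Tb` give `FlatLift`s

`A` (`= Tb(L)`) a `Λ`-algebra, `Λ → k` onto, `rA : GQ →* M2 A` lifting `rbar`, `W` a finite `M₂(A)`-module on which the scalars
act faithfully and on which `σ ↦ rA σ • ·` is flat on the inertia group at `p`.  Then for every `φ : A →ₐ[Λ] k[ε]` over `π`,
`pushRep φ rA` is a `S56.Flat.FlatLift` : this is the hypothesis at `v = p` of `(GEN)`.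
-/

set_option autoImplicit false

open ModularCurve ExtCitation

namespace Fermat.Agent.RIB

open Fermat.Agent.S56 Fermat.Agent.S56.Flat Fermat.Agent.S56.Font
open CFT (Qb)

theorem matAct_eq_vecAct {R : Type} [CommRing R] (G : Subgroup GQ) (r : GQ →* M2 R) :
    matAct G r = vecAct (r.comp G.subtype) := rfl

theorem pushM_comp_subtype {R B : Type} [CommRing R] [CommRing B] (G : Subgroup GQ) (ψ : R →+* B)
    (r : GQ →* M2 R) : pushM ψ (r.comp G.subtype) = (S53.mapRep ψ r).comp G.subtype := rfl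

variable {Γ₀ : Type} [LinearOrderedCommGroupWithZero Γ₀] {v : Valuation Qb Γ₀}

/-- flatness of `T²`. -/
theorem hasFlat_matAct_of_module {T : Type} [CommRing T] (G : Subgroup GQ) (r : GQ →* M2 T)
    {W : Type} [AddCommGroup W] [Module (M2 T) W] [Finite W]
    (hfaith : ∀ t : T, (∀ w : W, (Matrix.scalar (Fin 2) t) • w = 0) → t = 0)
    (hW : HasFlat v (modAct W (r.comp G.subtype))) : HasFlat v (matAct G r) :=
  hasFlat_vecAct (r.comp G.subtype) hfaith hW

/-- flatness of the push-forward along a surjection. -/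
theorem hasFlat_matAct_mapRep {T B : Type} [CommRing T] [CommRing B] (G : Subgroup GQ)
    (r : GQ →* M2 T) {W : Type} [AddCommGroup W] [Module (M2 T) W] [Finite W]
    (hfaith : ∀ t : T, (∀ w : W, (Matrix.scalar (Fin 2) t) • w = 0) → t = 0)
    (hW : HasFlat v (modAct W (r.comp G.subtype))) (ψ : T →+* B) (hψ : Function.Surjective ψ) :
    HasFlat v (matAct G (S53.mapRep ψ r)) := by
  have := finite_of_faithful (W := W) hfaith
  exact HasFlat.vecAct_map (hasFlat_vecAct (r.comp G.subtype) hfaith hW) ψ hψ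

/-- flatness of the push-forward along a tangent vector. -/
theorem hasFlat_matAct_dual {T k : Type} [CommRing T] [Field k] (G : Subgroup GQ)
    (r : GQ →* M2 T) {W : Type} [AddCommGroup W] [Module (M2 T) W] [Finite W]
    (hfaith : ∀ t : T, (∀ w : W, (Matrix.scalar (Fin 2) t) • w = 0) → t = 0)
    (hW : HasFlat v (modAct W (r.comp G.subtype))) (φ : T →+* DualNumber k)
    (hk : ∀ a : k, ∃ t : T, φ t = TrivSqZeroExt.inl a) :
    HasFlat v (matAct G (S53.mapRep φ r)) := by
  have := finite_of_faithful (W := W) hfaith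
  exact HasFlat.vecAct_dual (hasFlat_vecAct (r.comp G.subtype) hfaith hW) φ hk

variable {p : ℕ} [Fact p.Prime] {k : Type} [Field k] {Λ A : Type} [CommRing Λ] [Algebra Λ k]
  [CommRing A] [Algebra Λ A]

theorem factors_pushRep {rA : GQ →* M2 A} (hcont : GaloisFactorsThroughFiniteLevel rA)
    (φ : A →ₐ[Λ] DualNumber k) : GaloisFactorsThroughFiniteLevel (pushRep φ rA) := by
  obtain ⟨L, hL, h⟩ := hcont
  exact ⟨L, hL, fun σ hσ => pushRep_eq_one φ (h σ hσ)⟩

/-- **[RIB-FLAT]** -/
theorem flatLift_pushRep (hΛ : Function.Surjective (algebraMap Λ k)) {rbar : GQ →* M2 k}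
    {π : A →ₐ[Λ] k} {rA : GQ →* M2 A} (hlift : ∀ σ, (rA σ).map π = rbar σ)
    (hdet : ∀ σ, ∃ c : Λ, (rA σ).det = algebraMap Λ A c)
    (hcont : GaloisFactorsThroughFiniteLevel rA)
    {W : Type} [AddCommGroup W] [Module (M2 A) W] [Finite W]
    (hfaith : ∀ t : A, (∀ w : W, (Matrix.scalar (Fin 2) t) • w = 0) → t = 0)
    (hW : HasFlat (Ap p).valuation (modAct W (rA.comp (Ip p).subtype)))
    {φ : A →ₐ[Λ] DualNumber k} (hφ : ∀ a, (φ a).fst = π a) :
    FlatLift p rbar (pushRep φ rA) where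
  lift := isLift_pushRep hlift hφ
  det := det_pushRep hlift hdet φ
  cont := factors_pushRep hcont φ
  flat := by
    refine hasFlat_matAct_dual (Ip p) rA hfaith hW (φ : A →+* DualNumber k) fun a => ?_
    obtain ⟨c, rfl⟩ := hΛ a
    exact ⟨algebraMap Λ A c, φ.commutes c⟩

/-- **[RIB-FLAT]**, with `W` embedded in a power of `J₀(L)[p^n]`. -/
theorem flatLift_pushRep_of_embedding (hΛ : Function.Surjective (algebraMap Λ k))
    {rbar : GQ →* M2 k} {π : A →ₐ[Λ] k} {rA : GQ →* M2 A} (hlift : ∀ σ, (rA σ).map π = rbar σ)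
    (hdet : ∀ σ, ∃ c : Λ, (rA σ).det = algebraMap Λ A c)
    (hcont : GaloisFactorsThroughFiniteLevel rA)
    {W : Type} [AddCommGroup W] [Module (M2 A) W]
    (hfaith : ∀ t : A, (∀ w : W, (Matrix.scalar (Fin 2) t) • w = 0) → t = 0)
    (L : ℕ) [NeZero L] (hpL : ¬ p ∣ L) (n : ℕ) (ι : Type) [Finite ι] [Nonempty ι]
    (j : W →+ (ι → ↥(Submodule.torsionBy ℤ (JZero L) ((p : ℤ) ^ n))))
    (hj : Function.Injective j)
    (heq : ∀ (σ : GQ) (w : W) (i : ι), ((j (rA σ • w) i : _) : JZero L) = σ • ((j w i : _) : JZero L))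
    {φ : A →ₐ[Λ] DualNumber k} (hφ : ∀ a, (φ a).fst = π a) :
    FlatLift p rbar (pushRep φ rA) := by
  have hp : p.Prime := Fact.out
  have := finite_tors hp L hpL n
  have : Finite W := Finite.of_injective j hj
  refine flatLift_pushRep hΛ hlift hdet hcont hfaith ?_ hφ
  exact hasFlat_of_embedding hp (liesOverPrime_primeLocalPlace (pPrime p)) L hpL n (modAct W rA) ι j
    hj heq

end Fermat.Agent.RIB
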